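/-
S25 package A1 (helper7630): basic operations on glued modules over a two-chart.
Builds on `Fermat/Agent/S25/Core.lean` (helper5425, verbatim).

Contents:
* `TwoChart.u`            : the unit `r₁ f` of `B₁₂`;
* `TwoChart.algebra₁/₂`   : `B₁₂` as a `B_i`-algebra (reducible defs, *not* instances), and
  `TwoChart.isLocalization₁/₂` : `B₁₂ = B₁[1/f] = B₂[1/g]` in Mathlib's sense;
* `GluedModule.module₁/₂`, `GluedModule.ι₁ₗ/ι₂ₗ`, `GluedModule.isLocalizedModule₁/₂` : the bridge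
  between the Core axioms and Mathlib's `IsLocalizedModule`;
* `GluedModule.Hom`, `GluedModule.Iso` API (`refl`, `symm`, `trans`, `toHom`), functoriality of
  `H0` and `H1`;
* `GluedModule.unit 𝔹` (the structure sheaf `O`), `GluedModule.twist N n` (`N⟨n⟩`, `n : ℤ`).
-/
import Fermat.Agent.S25.Core

set_option autoImplicit false
set_option linter.style.haveILetI false

universe u

namespace Fermat.Agent.S25

namespace TwoChart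

variable {R : Type u} [CommRing R] (𝔹 : TwoChart R)

/-- The unit `r₁ f` of `B₁₂`, with inverse `r₂ g`. -/
def u : 𝔹.B₁₂ˣ := ⟨𝔹.r₁ 𝔹.f, 𝔹.r₂ 𝔹.g, 𝔹.fg, by rw [mul_comm]; exact 𝔹.fg⟩

@[simp] theorem u_val : (𝔹.u : 𝔹.B₁₂) = 𝔹.r₁ 𝔹.f := rfl

@[simp] theorem u_inv_val : ((𝔹.u⁻¹ : 𝔹.B₁₂ˣ) : 𝔹.B₁₂) = 𝔹.r₂ 𝔹.g := rfl

theorem gf : 𝔹.r₂ 𝔹.g * 𝔹.r₁ 𝔹.f = 1 := by rw [mul_comm]; exact 𝔹.fg

/-- `B₁₂` as a `B₁`-algebra via `r₁` (not an instance; use `letI`). -/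
@[reducible] def algebra₁ : Algebra 𝔹.B₁ 𝔹.B₁₂ := 𝔹.r₁.toRingHom.toAlgebra

/-- `B₁₂` as a `B₂`-algebra via `r₂` (not an instance; use `letI`). -/
@[reducible] def algebra₂ : Algebra 𝔹.B₂ 𝔹.B₁₂ := 𝔹.r₂.toRingHom.toAlgebra

/-- `B₁₂ = B₁[1/f]`. -/
theorem isLocalization₁ :
    @IsLocalization 𝔹.B₁ _ (Submonoid.powers 𝔹.f) 𝔹.B₁₂ _ 𝔹.algebra₁ := by
  letI := 𝔹.algebra₁
  rw [isLocalization_iff]
  refine ⟨?_, ?_, ?_⟩
  · rintro ⟨y, n, rfl⟩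
    change IsUnit (𝔹.r₁ (𝔹.f ^ n))
    rw [map_pow]
    exact (𝔹.u ^ n).isUnit
  · intro z
    obtain ⟨a, n, rfl⟩ := 𝔹.surj₁ z
    refine ⟨(a, ⟨𝔹.f ^ n, n, rfl⟩), ?_⟩
    change 𝔹.r₁ a * 𝔹.r₂ 𝔹.g ^ n * 𝔹.r₁ (𝔹.f ^ n) = 𝔹.r₁ a
    rw [map_pow, mul_assoc, ← mul_pow, 𝔹.gf, one_pow, mul_one]
  · intro x y h
    change 𝔹.r₁ x = 𝔹.r₁ y at h
    obtain ⟨n, hn⟩ := 𝔹.ker₁ (x - y) (by rw [map_sub, h, sub_self])
    refine ⟨⟨𝔹.f ^ n, n, rfl⟩, ?_⟩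
    rw [mul_sub, sub_eq_zero] at hn
    exact hn

/-- `B₁₂ = B₂[1/g]`. -/
theorem isLocalization₂ :
    @IsLocalization 𝔹.B₂ _ (Submonoid.powers 𝔹.g) 𝔹.B₁₂ _ 𝔹.algebra₂ := by
  letI := 𝔹.algebra₂
  rw [isLocalization_iff]
  refine ⟨?_, ?_, ?_⟩
  · rintro ⟨y, n, rfl⟩
    change IsUnit (𝔹.r₂ (𝔹.g ^ n))
    rw [map_pow]
    exact (𝔹.u⁻¹ ^ n).isUnit
  · intro z
    obtain ⟨a, n, rfl⟩ := 𝔹.surj₂ z
    refine ⟨(a, ⟨𝔹.g ^ n, n, rfl⟩), ?_⟩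
    change 𝔹.r₂ a * 𝔹.r₁ 𝔹.f ^ n * 𝔹.r₂ (𝔹.g ^ n) = 𝔹.r₂ a
    rw [map_pow, mul_assoc, ← mul_pow, 𝔹.fg, one_pow, mul_one]
  · intro x y h
    change 𝔹.r₂ x = 𝔹.r₂ y at h
    obtain ⟨n, hn⟩ := 𝔹.ker₂ (x - y) (by rw [map_sub, h, sub_self])
    refine ⟨⟨𝔹.g ^ n, n, rfl⟩, ?_⟩
    rw [mul_sub, sub_eq_zero] at hn
    exact hn

end TwoChart

/-! ### Single-chart lemmas: Mathlib's `IsLocalizedModule` versus the Core axioms -/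

section abstract

variable {B B' : Type*} [CommRing B] [CommRing B'] [Algebra B B'] (f : B) (finv : B')
  {M M' : Type*} [AddCommGroup M] [Module B M] [AddCommGroup M'] [Module B M'] [Module B' M']
  [IsScalarTower B B' M'] (ι : M →ₗ[B] M')

theorem exists_eq_pow_smul_of_isLocalizedModule (hf : algebraMap B B' f * finv = 1)
    [IsLocalizedModule (Submonoid.powers f) ι] (y : M') :
    ∃ (n : M) (m : ℕ), y = finv ^ m • ι n := by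
  obtain ⟨⟨n, ⟨_, m, rfl⟩⟩, h⟩ := IsLocalizedModule.surj (Submonoid.powers f) ι y
  refine ⟨n, m, ?_⟩
  have h' : f ^ m • y = ι n := h
  rw [← h', ← algebraMap_smul B' (f ^ m) y, ← mul_smul, map_pow, ← mul_pow, mul_comm, hf, one_pow,
    one_smul]

theorem exists_pow_smul_eq_zero_of_isLocalizedModule
    [IsLocalizedModule (Submonoid.powers f) ι] (n : M) (h : ι n = 0) : ∃ m : ℕ, f ^ m • n = 0 := by
  obtain ⟨⟨_, m, rfl⟩, hm⟩ := (IsLocalizedModule.eq_zero_iff (Submonoid.powers f) ι).mp h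
  exact ⟨m, hm⟩

theorem isLocalizedModule_of_core (hf : algebraMap B B' f * finv = 1)
    (hsurj : ∀ y : M', ∃ (n : M) (m : ℕ), y = finv ^ m • ι n)
    (hker : ∀ n : M, ι n = 0 → ∃ m : ℕ, f ^ m • n = 0) :
    IsLocalizedModule (Submonoid.powers f) ι := by
  have hf' : finv * algebraMap B B' f = 1 := by rw [mul_comm]; exact hf
  refine ⟨?_, ?_, ?_⟩
  · rintro ⟨_, m, rfl⟩
    rw [Module.End.isUnit_iff]
    refine ⟨fun x y hxy => ?_, fun y => ⟨finv ^ m • y, ?_⟩⟩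
    · have h1 : f ^ m • x = f ^ m • y := hxy
      have h2 := congrArg (fun z => finv ^ m • z) h1
      simpa only [← algebraMap_smul B' (f ^ m), ← mul_smul, map_pow, ← mul_pow, hf', one_pow,
        one_smul] using h2
    · change f ^ m • finv ^ m • y = y
      rw [← algebraMap_smul B' (f ^ m), ← mul_smul, map_pow, ← mul_pow, hf, one_pow, one_smul]
  · intro y
    obtain ⟨n, m, rfl⟩ := hsurj y
    refine ⟨(n, ⟨f ^ m, m, rfl⟩), ?_⟩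
    change f ^ m • finv ^ m • ι n = ι n
    rw [← algebraMap_smul B' (f ^ m), ← mul_smul, map_pow, ← mul_pow, hf, one_pow, one_smul]
  · intro x₁ x₂ h
    obtain ⟨m, hm⟩ := hker (x₁ - x₂) (by rw [map_sub, h, sub_self])
    refine ⟨⟨f ^ m, m, rfl⟩, ?_⟩
    rw [smul_sub, sub_eq_zero] at hm
    exact hm

end abstract

namespace GluedModule

variable {R : Type u} [CommRing R] {𝔹 : TwoChart R} (N : GluedModule 𝔹)

/-- `N₁₂` as a `B₁`-module via `r₁` (not an instance; use `letI`). -/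
@[reducible] def module₁ : Module 𝔹.B₁ N.N₁₂ := Module.compHom N.N₁₂ 𝔹.r₁.toRingHom

/-- `N₁₂` as a `B₂`-module via `r₂` (not an instance; use `letI`). -/
@[reducible] def module₂ : Module 𝔹.B₂ N.N₁₂ := Module.compHom N.N₁₂ 𝔹.r₂.toRingHom

theorem isScalarTower₁ :
    letI := 𝔹.algebra₁; letI := N.module₁; IsScalarTower 𝔹.B₁ 𝔹.B₁₂ N.N₁₂ := by
  letI := 𝔹.algebra₁; letI := N.module₁
  exact ⟨fun b c n => by
    change (𝔹.r₁ b * c) • n = 𝔹.r₁ b • c • n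
    rw [mul_smul]⟩

theorem isScalarTower₂ :
    letI := 𝔹.algebra₂; letI := N.module₂; IsScalarTower 𝔹.B₂ 𝔹.B₁₂ N.N₁₂ := by
  letI := 𝔹.algebra₂; letI := N.module₂
  exact ⟨fun b c n => by
    change (𝔹.r₂ b * c) • n = 𝔹.r₂ b • c • n
    rw [mul_smul]⟩

/-- `ι₁` as a `B₁`-linear map, for the `B₁`-module structure `N.module₁` on `N₁₂`. -/
def ι₁ₗ : letI := N.module₁; N.N₁ →ₗ[𝔹.B₁] N.N₁₂ :=
  letI := N.module₁
  { toFun := N.ι₁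
    map_add' := N.ι₁.map_add
    map_smul' := fun b n => N.ι₁_smul b n }

/-- `ι₂` as a `B₂`-linear map, for the `B₂`-module structure `N.module₂` on `N₁₂`. -/
def ι₂ₗ : letI := N.module₂; N.N₂ →ₗ[𝔹.B₂] N.N₁₂ :=
  letI := N.module₂
  { toFun := N.ι₂
    map_add' := N.ι₂.map_add
    map_smul' := fun b n => N.ι₂_smul b n }

@[simp] theorem ι₁ₗ_apply (n : N.N₁) : N.ι₁ₗ n = N.ι₁ n := rfl

@[simp] theorem ι₂ₗ_apply (n : N.N₂) : N.ι₂ₗ n = N.ι₂ n := rfl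

/-- `N₁₂ = N₁[1/f]` in Mathlib's sense. -/
theorem isLocalizedModule₁ :
    letI := N.module₁; IsLocalizedModule (Submonoid.powers 𝔹.f) N.ι₁ₗ := by
  letI := 𝔹.algebra₁; letI := N.module₁
  haveI := N.isScalarTower₁
  exact isLocalizedModule_of_core 𝔹.f (𝔹.r₂ 𝔹.g) N.ι₁ₗ 𝔹.fg N.surj₁ N.ker₁

/-- `N₁₂ = N₂[1/g]` in Mathlib's sense. -/
theorem isLocalizedModule₂ :
    letI := N.module₂; IsLocalizedModule (Submonoid.powers 𝔹.g) N.ι₂ₗ := by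
  letI := 𝔹.algebra₂; letI := N.module₂
  haveI := N.isScalarTower₂
  exact isLocalizedModule_of_core 𝔹.g (𝔹.r₁ 𝔹.f) N.ι₂ₗ 𝔹.gf N.surj₂ N.ker₂

end GluedModule

namespace GluedModule

variable {R : Type u} [CommRing R] {𝔹 : TwoChart R}

theorem mem_H0 (N : GluedModule 𝔹) (x : N.N₁ × N.N₂) : x ∈ N.H0 ↔ N.ι₁ x.1 = N.ι₂ x.2 := by
  change N.d x = 0 ↔ _
  simp [d, sub_eq_zero]

theorem d_apply (N : GluedModule 𝔹) (x : N.N₁ × N.N₂) : N.d x = N.ι₁ x.1 - N.ι₂ x.2 := by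
  simp [d]

/-- Morphisms of glued modules. -/
@[ext] structure Hom (N N' : GluedModule 𝔹) where
  φ₁ : N.N₁ →ₗ[𝔹.B₁] N'.N₁
  φ₂ : N.N₂ →ₗ[𝔹.B₂] N'.N₂
  φ₁₂ : N.N₁₂ →ₗ[𝔹.B₁₂] N'.N₁₂
  comm₁ : ∀ n, φ₁₂ (N.ι₁ n) = N'.ι₁ (φ₁ n)
  comm₂ : ∀ n, φ₁₂ (N.ι₂ n) = N'.ι₂ (φ₂ n)

namespace Hom

variable {N N' N'' : GluedModule 𝔹}

/-- The identity morphism. -/
def id (N : GluedModule 𝔹) : Hom N N where
  φ₁ := LinearMap.id
  φ₂ := LinearMap.id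
  φ₁₂ := LinearMap.id
  comm₁ _ := rfl
  comm₂ _ := rfl

/-- Composition of morphisms. -/
def comp (ψ : Hom N' N'') (φ : Hom N N') : Hom N N'' where
  φ₁ := ψ.φ₁ ∘ₗ φ.φ₁
  φ₂ := ψ.φ₂ ∘ₗ φ.φ₂
  φ₁₂ := ψ.φ₁₂ ∘ₗ φ.φ₁₂
  comm₁ n := by simp [φ.comm₁, ψ.comm₁]
  comm₂ n := by simp [φ.comm₂, ψ.comm₂]

/-- A morphism commutes with the Čech differential. -/
theorem d_comm (φ : Hom N N') (x : N.N₁ × N.N₂) :
    φ.φ₁₂ (N.d x) = N'.d (φ.φ₁ x.1, φ.φ₂ x.2) := by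
  simp [d_apply, φ.comm₁, φ.comm₂]

/-- The induced map on global sections. -/
def H0 (φ : Hom N N') : N.H0 →ₗ[R] N'.H0 :=
  LinearMap.restrict (LinearMap.prodMap (φ.φ₁.restrictScalars R) (φ.φ₂.restrictScalars R))
    (fun x hx => by
      rw [mem_H0] at hx ⊢
      change N'.ι₁ (φ.φ₁ x.1) = N'.ι₂ (φ.φ₂ x.2)
      rw [← φ.comm₁, ← φ.comm₂, hx])

@[simp] theorem H0_apply_coe (φ : Hom N N') (x : N.H0) :
    ((φ.H0 x : N'.N₁ × N'.N₂)) = (φ.φ₁ (x : N.N₁ × N.N₂).1, φ.φ₂ (x : N.N₁ × N.N₂).2) := rfl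

/-- The induced map on `H¹`. -/
def H1 (φ : Hom N N') : N.H1 →ₗ[R] N'.H1 :=
  Submodule.mapQ _ _ (φ.φ₁₂.restrictScalars R) (by
    rintro _ ⟨x, rfl⟩
    rw [Submodule.mem_comap]
    change φ.φ₁₂ (N.d x) ∈ _
    rw [φ.d_comm]
    exact ⟨_, rfl⟩)

@[simp] theorem H1_mk (φ : Hom N N') (x : N.N₁₂) :
    φ.H1 (Submodule.Quotient.mk x) = Submodule.Quotient.mk (φ.φ₁₂ x) := rfl

@[simp] theorem H0_id (N : GluedModule 𝔹) : (Hom.id N).H0 = LinearMap.id := by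
  ext x <;> rfl

@[simp] theorem H1_id (N : GluedModule 𝔹) : (Hom.id N).H1 = LinearMap.id := by
  apply Submodule.linearMap_qext
  rfl

theorem H0_comp (ψ : Hom N' N'') (φ : Hom N N') : (ψ.comp φ).H0 = ψ.H0 ∘ₗ φ.H0 := by
  ext x <;> rfl

theorem H1_comp (ψ : Hom N' N'') (φ : Hom N N') : (ψ.comp φ).H1 = ψ.H1 ∘ₗ φ.H1 := by
  apply Submodule.linearMap_qext
  rfl

end Hom

namespace Iso

variable {N N' N'' : GluedModule 𝔹}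

/-- The identity isomorphism. -/
def refl (N : GluedModule 𝔹) : Iso N N where
  e₁ := LinearEquiv.refl _ _
  e₂ := LinearEquiv.refl _ _
  e₁₂ := LinearEquiv.refl _ _
  comm₁ _ := rfl
  comm₂ _ := rfl

/-- The inverse isomorphism. -/
def symm (e : Iso N N') : Iso N' N where
  e₁ := e.e₁.symm
  e₂ := e.e₂.symm
  e₁₂ := e.e₁₂.symm
  comm₁ n := by
    rw [LinearEquiv.symm_apply_eq, e.comm₁, LinearEquiv.apply_symm_apply]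
  comm₂ n := by
    rw [LinearEquiv.symm_apply_eq, e.comm₂, LinearEquiv.apply_symm_apply]

/-- Composition of isomorphisms. -/
def trans (e : Iso N N') (e' : Iso N' N'') : Iso N N'' where
  e₁ := e.e₁.trans e'.e₁
  e₂ := e.e₂.trans e'.e₂
  e₁₂ := e.e₁₂.trans e'.e₁₂
  comm₁ n := by simp [e.comm₁, e'.comm₁]
  comm₂ n := by simp [e.comm₂, e'.comm₂]

/-- The underlying morphism of an isomorphism. -/
def toHom (e : Iso N N') : Hom N N' where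
  φ₁ := e.e₁.toLinearMap
  φ₂ := e.e₂.toLinearMap
  φ₁₂ := e.e₁₂.toLinearMap
  comm₁ := e.comm₁
  comm₂ := e.comm₂

theorem symm_toHom_comp_toHom (e : Iso N N') : e.symm.toHom.comp e.toHom = Hom.id N := by
  ext x <;> simp [Hom.comp, toHom, symm, Hom.id]

theorem toHom_comp_symm_toHom (e : Iso N N') : e.toHom.comp e.symm.toHom = Hom.id N' := by
  ext x <;> simp [Hom.comp, toHom, symm, Hom.id]

/-- Isomorphic glued modules have isomorphic global sections. -/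
def H0 (e : Iso N N') : N.H0 ≃ₗ[R] N'.H0 :=
  LinearEquiv.ofLinearMap e.toHom.H0 e.symm.toHom.H0
    (by rw [← Hom.H0_comp, toHom_comp_symm_toHom, Hom.H0_id])
    (by rw [← Hom.H0_comp, symm_toHom_comp_toHom, Hom.H0_id])

/-- Isomorphic glued modules have isomorphic `H¹`. -/
def H1 (e : Iso N N') : N.H1 ≃ₗ[R] N'.H1 :=
  LinearEquiv.ofLinearMap e.toHom.H1 e.symm.toHom.H1
    (by rw [← Hom.H1_comp, toHom_comp_symm_toHom, Hom.H1_id])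
    (by rw [← Hom.H1_comp, symm_toHom_comp_toHom, Hom.H1_id])

end Iso

/-- Two glued modules are isomorphic. -/
def IsIso (N N' : GluedModule 𝔹) : Prop := Nonempty (Iso N N')

theorem IsIso.refl (N : GluedModule 𝔹) : IsIso N N := ⟨Iso.refl N⟩

theorem IsIso.symm {N N' : GluedModule 𝔹} (h : IsIso N N') : IsIso N' N := ⟨h.some.symm⟩

theorem IsIso.trans {N N' N'' : GluedModule 𝔹} (h : IsIso N N') (h' : IsIso N' N'') :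
    IsIso N N'' := ⟨h.some.trans h'.some⟩

end GluedModule

namespace GluedModule

variable {R : Type u} [CommRing R] {𝔹 : TwoChart R}

/-- The structure sheaf `O`, as a glued module. -/
@[reducible] def unit (𝔹 : TwoChart R) : GluedModule 𝔹 where
  N₁ := 𝔹.B₁
  N₂ := 𝔹.B₂
  N₁₂ := 𝔹.B₁₂
  ι₁ := 𝔹.r₁.toLinearMap
  ι₂ := 𝔹.r₂.toLinearMap
  ι₁_smul b n := by simp
  ι₂_smul b n := by simp
  surj₁ y := by
    obtain ⟨a, n, h⟩ := 𝔹.surj₁ y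
    exact ⟨a, n, by rw [h, smul_eq_mul, mul_comm]; rfl⟩
  ker₁ n h := 𝔹.ker₁ n h
  surj₂ y := by
    obtain ⟨a, n, h⟩ := 𝔹.surj₂ y
    exact ⟨a, n, by rw [h, smul_eq_mul, mul_comm]; rfl⟩
  ker₂ n h := 𝔹.ker₂ n h

@[simp] theorem unit_ι₁ (b : 𝔹.B₁) : (unit 𝔹).ι₁ b = 𝔹.r₁ b := rfl

@[simp] theorem unit_ι₂ (b : 𝔹.B₂) : (unit 𝔹).ι₂ b = 𝔹.r₂ b := rfl

/-- The unit is a line bundle. -/
theorem unit_isLineBundle (𝔹 : TwoChart R) : (unit 𝔹).IsLineBundle :=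
  ⟨inferInstanceAs (Module.Invertible 𝔹.B₁ 𝔹.B₁), inferInstanceAs (Module.Invertible 𝔹.B₂ 𝔹.B₂)⟩

/-- The twist `N⟨n⟩` (`n : ℤ`): same chart modules, the second restriction map multiplied by
`(r₁ f)^n`.  Geometrically `N ⊗ O(n · f⁻¹(∞))`. -/
@[reducible] def twist (N : GluedModule 𝔹) (n : ℤ) : GluedModule 𝔹 where
  N₁ := N.N₁
  N₂ := N.N₂
  N₁₂ := N.N₁₂
  ι₁ := N.ι₁
  ι₂ :=
    { toFun := fun x => ((𝔹.u ^ n : 𝔹.B₁₂ˣ) : 𝔹.B₁₂) • N.ι₂ x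
      map_add' := fun x y => by rw [map_add, smul_add]
      map_smul' := fun r x => by
        rw [map_smul, RingHom.id_apply, smul_comm] }
  ι₁_smul := N.ι₁_smul
  ι₂_smul b x := by
    change ((𝔹.u ^ n : 𝔹.B₁₂ˣ) : 𝔹.B₁₂) • N.ι₂ (b • x) = 𝔹.r₂ b • ((𝔹.u ^ n : 𝔹.B₁₂ˣ) : 𝔹.B₁₂) • N.ι₂ x
    rw [N.ι₂_smul, smul_comm]
  surj₁ := N.surj₁
  ker₁ := N.ker₁
  surj₂ y := by
    obtain ⟨x, m, h⟩ := N.surj₂ (((𝔹.u ^ n)⁻¹ : 𝔹.B₁₂ˣ) • y)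
    refine ⟨x, m, ?_⟩
    change y = 𝔹.r₁ 𝔹.f ^ m • ((𝔹.u ^ n : 𝔹.B₁₂ˣ) : 𝔹.B₁₂) • N.ι₂ x
    rw [smul_comm, ← h, Units.smul_def, ← mul_smul, Units.mul_inv, one_smul]
  ker₂ x h := by
    apply N.ker₂
    have h' : ((𝔹.u ^ n : 𝔹.B₁₂ˣ) : 𝔹.B₁₂) • N.ι₂ x = 0 := h
    have := congrArg (fun z => (((𝔹.u ^ n)⁻¹ : 𝔹.B₁₂ˣ) : 𝔹.B₁₂) • z) h'
    simpa only [← mul_smul, Units.inv_mul, one_smul, smul_zero] using this

@[simp] theorem twist_ι₁ (N : GluedModule 𝔹) (n : ℤ) (x : N.N₁) : (N.twist n).ι₁ x = N.ι₁ x := rfl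

@[simp] theorem twist_ι₂ (N : GluedModule 𝔹) (n : ℤ) (x : N.N₂) :
    (N.twist n).ι₂ x = ((𝔹.u ^ n : 𝔹.B₁₂ˣ) : 𝔹.B₁₂) • N.ι₂ x := rfl

theorem twist_isLineBundle {N : GluedModule 𝔹} (h : N.IsLineBundle) (n : ℤ) :
    (N.twist n).IsLineBundle := ⟨h.inv₁, h.inv₂⟩

/-- `N⟨0⟩ ≅ N`. -/
def twistZero (N : GluedModule 𝔹) : Iso (N.twist 0) N where
  e₁ := LinearEquiv.refl _ _
  e₂ := LinearEquiv.refl _ _
  e₁₂ := LinearEquiv.refl _ _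
  comm₁ _ := rfl
  comm₂ x := by
    change ((𝔹.u ^ (0 : ℤ) : 𝔹.B₁₂ˣ) : 𝔹.B₁₂) • N.ι₂ x = N.ι₂ x
    rw [zpow_zero, Units.val_one, one_smul]

/-- `N⟨m⟩⟨n⟩ ≅ N⟨m + n⟩`. -/
def twistTwist (N : GluedModule 𝔹) (m n : ℤ) : Iso ((N.twist m).twist n) (N.twist (m + n)) where
  e₁ := LinearEquiv.refl _ _
  e₂ := LinearEquiv.refl _ _
  e₁₂ := LinearEquiv.refl _ _
  comm₁ _ := rfl
  comm₂ x := by
    change ((𝔹.u ^ n : 𝔹.B₁₂ˣ) : 𝔹.B₁₂) • ((𝔹.u ^ m : 𝔹.B₁₂ˣ) : 𝔹.B₁₂) • N.ι₂ x =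
      ((𝔹.u ^ (m + n) : 𝔹.B₁₂ˣ) : 𝔹.B₁₂) • N.ι₂ x
    rw [← mul_smul, ← Units.val_mul, ← zpow_add, add_comm]

/-- Twisting is functorial for isomorphisms. -/
def Iso.twist {N N' : GluedModule 𝔹} (e : Iso N N') (n : ℤ) : Iso (N.twist n) (N'.twist n) where
  e₁ := e.e₁
  e₂ := e.e₂
  e₁₂ := e.e₁₂
  comm₁ := e.comm₁
  comm₂ := fun (x : N.N₂) => by
    change e.e₁₂ (((𝔹.u ^ n : 𝔹.B₁₂ˣ) : 𝔹.B₁₂) • N.ι₂ x) =
      ((𝔹.u ^ n : 𝔹.B₁₂ˣ) : 𝔹.B₁₂) • N'.ι₂ (e.e₂ x)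
    rw [map_smul, e.comm₂]

end GluedModule

end Fermat.Agent.S25
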